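import Fermat.Agent.S41.H744.IharaEigen
import Fermat.Agent.S41.H45.NEKummer

/-!
# Row S59, cells NM / NMP (helper341): Ihara's lemma at EVERY prime `q ∤ N` (also `q = p`),
with coefficients in an arbitrary `p`-torsion group

`S41.Spec.IharaEigenStatement` (on main) is stated for `q ≠ p` and `ZMod p`-valued classes.  Its
proof (`H744.iharaEigen_of_neKummer`) uses neither restriction.  Here:

* `ihara_eigen_torsion` : `A` any abelian group killed by `p`; `φ₁, φ₂ : Γ₀(N) → A` cuspidal,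
  `r₁ φ₁ + r₂ φ₂ = 0`, eigen for the `T_l` (`l ∤ N q p` good) with eigenvalues `a_l(W)`  ⇒
  `φ₁ = 0 ∧ φ₂ = 0`, for every prime `q ∤ N` (`q = p` allowed: "Ihara at `p`", cell NMP).
* `IharaEigenAnyStatement`, `iharaEigenAny` : the `ZMod p` form in the exact shape of
  `Spec.IharaEigenStatement`, without `q ≠ p`.
-/

set_option autoImplicit false
set_option linter.unusedSectionVars false
set_option linter.unusedSimpArgs false
set_option linter.unusedVariables false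

namespace Fermat.Agent.S59.H341

open Matrix CongruenceSubgroup ModularCurve.Period Fermat.Agent.S29.H642 Fermat.Agent.S41.H281
  Fermat.Agent.S41.H585 Fermat.Agent.S41.Spec Fermat.Agent.S41.H744
open WeierstrassCurve WeierstrassCurve.Affine WeierstrassCurve.Affine.Point
open scoped MatrixGroups

/-- **Ihara's lemma for eigen-pairs, any prime `q ∤ N`, `p`-torsion coefficients**; the
eigen-hypothesis is only needed outside a finite set `T` of primes. -/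
theorem ihara_eigen_torsion_avoid (E : WeierstrassCurve ℚ) [E.IsElliptic]
    (W : WeierstrassCurve ℤ)
    (hW : W.IsIntegralModelOf E) (p N q : ℕ) (hp : p.Prime) (hp2 : p ≠ 2) (hN0 : N ≠ 0)
    (hq : q.Prime) (hqN : ¬ q ∣ N)
    (hirr : GaloisRepIsIrreducible (K := AlgebraicClosure ℚ) ℚ E p)
    {A : Type*} [AddCommGroup A] (hA : ∀ x : A, p • x = 0) (T : Finset ℕ)
    (φ₁ φ₂ : Additive (Gamma0 N) →+ A) (hc₁ : IsCuspidal φ₁) (hc₂ : IsCuspidal φ₂)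
    (hker : r₁ N q φ₁ + r₂ N q φ₂ = 0)
    (heig : ∀ (l : ℕ) [Fact l.Prime] (hl : ¬ l ∣ N), ¬ l ∣ N * q → W.IsGoodPrimeFor l → l ≠ p →
      l ∉ T → heckeTransfer hl φ₁ = (W.apOfModel l : ℤ) • φ₁) :
    φ₁ = 0 ∧ φ₂ = 0 := by
  have : Fact q.Prime := ⟨hq⟩
  have : Fact p.Prime := ⟨hp⟩
  have hφ₁ : φ₁ = 0 := by
    by_contra hne
    obtain ⟨γ, hγ, hcq⟩ := exists_good_elt hqN φ₁ hc₁.1 hne
    have hc0 : (γ : SL(2, ℤ)) 1 0 ≠ 0 := by
      intro h0
      exact hcq (h0 ▸ dvd_zero _)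
    have hn0 : 0 < ((γ : SL(2, ℤ)) 1 0).natAbs := Int.natAbs_pos.mpr hc0
    have hκ0 : 0 < Nat.totient ((γ : SL(2, ℤ)) 1 0).natAbs := Nat.totient_pos.mpr hn0
    have hm0 : 0 < 2 * Nat.totient ((γ : SL(2, ℤ)) 1 0).natAbs * p *
        ((γ : SL(2, ℤ)) 1 0).natAbs :=
      Nat.mul_pos (Nat.mul_pos (Nat.mul_pos two_pos hκ0) hp.pos) hn0
    obtain ⟨l, hl, hlS, hgood, hlm, hlp, hne', hkum⟩ :=
      Fermat.Agent.S41.H45.neKummer_h45 E W hW p hp hp2 hirr q hq _ hm0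
        ((N * q).primeFactors ∪ T)
    have : Fact l.Prime := ⟨hl⟩
    have hNq0 : N * q ≠ 0 := Nat.mul_ne_zero hN0 hq.ne_zero
    have hlT : l ∉ T := fun h => hlS (Finset.mem_union_right _ h)
    have hlNq : ¬ l ∣ N * q := fun hd =>
      hlS (Finset.mem_union_left _ (Nat.mem_primeFactors.mpr ⟨hl, hd, hNq0⟩))
    have hlN : ¬ l ∣ N := fun hd => hlNq (Dvd.dvd.mul_right hd q)
    have hlq : l ≠ q := fun h => hlNq (h ▸ Dvd.intro_left N rfl)
    have hlp' : l ≠ p := by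
      intro h
      rw [h] at hlp
      have h1 : p ∣ p - 1 := (Nat.modEq_iff_dvd' hp.one_le).mp hlp.symm
      have h2 := Nat.le_of_dvd (Nat.sub_pos_of_lt hp.one_lt) h1
      have := hp.one_lt
      omega
    obtain ⟨Φ, hΦ⟩ := exists_Phi
      (Nat.Coprime.symm ((Nat.Prime.coprime_iff_not_dvd hq).mpr hqN)) φ₁ φ₂ hker
    have hu : Φ (Additive.ofMul (j1 N q (uG N 1))) = 0 := by
      rw [hΦ]; exact hc₁.1 _ (trace_uG 1)
    have hcomp : Φ.comp (MonoidHom.toAdditive (j1 N q)) = φ₁ :=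
      AddMonoidHom.ext fun g => hΦ (Additive.toMul g)
    -- the congruences
    have hcdvd : (γ : SL(2, ℤ)) 1 0 ∣ ((((γ : SL(2, ℤ)) 1 0).natAbs : ℕ) : ℤ) :=
      Int.dvd_natAbs.mpr dvd_rfl
    have hlc : (l : ℤ) ≡ 1 [ZMOD (γ : SL(2, ℤ)) 1 0] := by
      have h1 : l ≡ 1 [MOD ((γ : SL(2, ℤ)) 1 0).natAbs] := hlm.of_dvd (Dvd.intro_left _ rfl)
      have h2 := Int.natCast_modEq_iff.mpr h1
      exact_mod_cast h2.of_dvd hcdvd
    have hκ : (q : ℤ) ^ (2 * Nat.totient ((γ : SL(2, ℤ)) 1 0).natAbs) ≡ 1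
        [ZMOD (γ : SL(2, ℤ)) 1 0] := by
      have hcop : Nat.Coprime q ((γ : SL(2, ℤ)) 1 0).natAbs :=
        (Nat.Prime.coprime_iff_not_dvd hq).mpr fun h => hcq (Int.natCast_dvd.mpr h)
      have h1 := Nat.ModEq.pow_totient hcop
      have h2 : q ^ (2 * Nat.totient ((γ : SL(2, ℤ)) 1 0).natAbs) ≡ 1
          [MOD ((γ : SL(2, ℤ)) 1 0).natAbs] := by
        have := h1.pow 2
        rwa [← pow_mul, one_pow, mul_comm] at this
      have h3 := Int.natCast_modEq_iff.mpr h2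
      exact_mod_cast h3.of_dvd hcdvd
    have hord : p ∣ orderOf ((q : ZMod l) ^ (2 * Nat.totient ((γ : SL(2, ℤ)) 1 0).natAbs)) := by
      refine dvd_orderOf_of_kummer hp hlq ?_ hkum
      have h1 : 2 * Nat.totient ((γ : SL(2, ℤ)) 1 0).natAbs * p *
          ((γ : SL(2, ℤ)) 1 0).natAbs ∣ l - 1 := (Nat.modEq_iff_dvd' hl.one_le).mp hlm.symm
      exact dvd_trans (Dvd.intro _ rfl) h1
    have key := heckeTransfer_apply_eq_two_nsmul p (hp.odd_of_ne_two hp2) hA hlN hlq Φ hu γ _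
      hlc hκ hord
    rw [hcomp, hΦ, heig l hlN hlNq hgood hlp' hlT] at key
    -- `(a_l - 2) φ₁(γ) = 0`, `p φ₁(γ) = 0`, `gcd (a_l - 2, p) = 1`
    have h1 : (W.apOfModel l - 2 : ℤ) • φ₁ (Additive.ofMul γ) = 0 := by
      rw [AddMonoidHom.smul_apply] at key
      rw [sub_smul, key, ← natCast_zsmul]
      simp
    have hpz : (p : ℤ) • φ₁ (Additive.ofMul γ) = 0 := by
      rw [natCast_zsmul]; exact hA _
    have hnd : ¬ (p : ℤ) ∣ W.apOfModel l - 2 := by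
      intro hd
      apply hne'
      have hl1 : (p : ℤ) ∣ (l : ℤ) - 1 := by
        have := (Nat.modEq_iff_dvd' hl.one_le).mp hlp.symm
        have h' : ((p : ℕ) : ℤ) ∣ ((l - 1 : ℕ) : ℤ) := Int.natCast_dvd_natCast.mpr this
        rwa [Nat.cast_sub hl.one_le, Nat.cast_one] at h'
      have : W.apOfModel l - ((l : ℤ) + 1) = (W.apOfModel l - 2) - ((l : ℤ) - 1) := by ring
      rw [this]
      exact dvd_sub hd hl1
    have hcop : IsCoprime (W.apOfModel l - 2 : ℤ) (p : ℤ) :=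
      ((Nat.prime_iff_prime_int.mp hp).coprime_iff_not_dvd.mpr hnd).symm
    obtain ⟨u, v, huv⟩ := hcop
    apply hγ
    have : φ₁ (Additive.ofMul γ) = (1 : ℤ) • φ₁ (Additive.ofMul γ) := (one_smul _ _).symm
    rw [this, ← huv, add_smul, mul_smul, mul_smul, h1, hpz, smul_zero, smul_zero, add_zero]
  refine ⟨hφ₁, ?_⟩
  rw [hφ₁] at hker
  have h0 : r₂ N q φ₂ = 0 := by
    have : r₁ N q (0 : Additive (Gamma0 N) →+ A) = 0 := AddMonoidHom.zero_comp _
    rw [this, zero_add] at hker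
    exact hker
  exact eq_zero_of_r₂_eq_zero φ₂ hc₂.1 h0

/-- **Ihara's lemma for eigen-pairs, any prime `q ∤ N`, `p`-torsion coefficients.** -/
theorem ihara_eigen_torsion (E : WeierstrassCurve ℚ) [E.IsElliptic] (W : WeierstrassCurve ℤ)
    (hW : W.IsIntegralModelOf E) (p N q : ℕ) (hp : p.Prime) (hp2 : p ≠ 2) (hN0 : N ≠ 0)
    (hq : q.Prime) (hqN : ¬ q ∣ N)
    (hirr : GaloisRepIsIrreducible (K := AlgebraicClosure ℚ) ℚ E p)
    {A : Type*} [AddCommGroup A] (hA : ∀ x : A, p • x = 0)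
    (φ₁ φ₂ : Additive (Gamma0 N) →+ A) (hc₁ : IsCuspidal φ₁) (hc₂ : IsCuspidal φ₂)
    (hker : r₁ N q φ₁ + r₂ N q φ₂ = 0)
    (heig : ∀ (l : ℕ) [Fact l.Prime] (hl : ¬ l ∣ N), ¬ l ∣ N * q → W.IsGoodPrimeFor l → l ≠ p →
      heckeTransfer hl φ₁ = (W.apOfModel l : ℤ) • φ₁) :
    φ₁ = 0 ∧ φ₂ = 0 :=
  ihara_eigen_torsion_avoid E W hW p N q hp hp2 hN0 hq hqN hirr hA ∅ φ₁ φ₂ hc₁ hc₂ hker
    (fun l _ hl hl' hgood hlp _ => heig l hl hl' hgood hlp)

/-- `Spec.IharaEigenStatement` without the hypothesis `q ≠ p`. -/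
def IharaEigenAnyStatement : Prop :=
  ∀ (E : WeierstrassCurve ℚ) [E.IsElliptic] (W : WeierstrassCurve ℤ), W.IsIntegralModelOf E →
    ∀ (p N q : ℕ), p.Prime → p ≠ 2 → N ≠ 0 → q.Prime → ¬ q ∣ N →
      GaloisRepIsIrreducible (K := AlgebraicClosure ℚ) ℚ E p →
      ∀ φ₁ φ₂ : Additive (Gamma0 N) →+ ZMod p, IsCuspidal φ₁ → IsCuspidal φ₂ →
        r₁ N q φ₁ + r₂ N q φ₂ = 0 →
        (∀ (l : ℕ) [Fact l.Prime] (hl : ¬ l ∣ N), ¬ l ∣ N * q → W.IsGoodPrimeFor l → l ≠ p →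
          heckeTransfer hl φ₁ = ((W.apOfModel l : ℤ) : ZMod p) • φ₁ ∧
          heckeTransfer hl φ₂ = ((W.apOfModel l : ℤ) : ZMod p) • φ₂) →
        φ₁ = 0 ∧ φ₂ = 0

/-- **Ihara's lemma at every prime `q ∤ N`** (in particular at `q = p`). -/
theorem iharaEigenAny : IharaEigenAnyStatement := by
  intro E _ W hW p N q hp hp2 hN0 hq hqN hirr φ₁ φ₂ hc₁ hc₂ hker heig
  have : Fact p.Prime := ⟨hp⟩
  refine ihara_eigen_torsion E W hW p N q hp hp2 hN0 hq hqN hirr (fun x => ?_) φ₁ φ₂ hc₁ hc₂ hker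
    (fun l _ hl hl' hgood hlp => ?_)
  · simp
  · rw [(heig l hl hl' hgood hlp).1]
    ext g
    simp [AddMonoidHom.smul_apply, zsmul_eq_mul]

end Fermat.Agent.S59.H341
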